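/-
S30 / p-adic layer (helper829) — abstract "eigensystem occurs" lemma, Mathlib-only.

* `exists_semilinear_functional`: a finitely generated faithful module `N` over a commutative ring
  `𝕋` admits, for every ring hom `χ : 𝕋 → F` into a field, a nonzero additive `θ : N → F` with
  `θ (t • y) = χ t * θ y`  (support = zero locus of the annihilator + Nakayama).
* `exists_eigen_hom`: `𝕋` acts faithfully on `S`, `π : S →+ (Γ →+ K)` is injective ("period map"),
  `Γ` finitely generated.  Then for every ring hom `χ : 𝕋 → O` into a domain there is a nonzero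
  `φ : Γ →+ O` which is a `χ`-eigenvector in the following sense: whenever
  `π s b' = π (t • s) b` for all `s`, then `φ b' = χ t * φ b`; and `φ b = 0` whenever all periods
  `π s b` vanish.  No characteristic assumption, no commutativity on the lattice side.
-/
import Mathlib

set_option autoImplicit false

namespace Fermat.Agent.S30.H829

open TensorProduct

/-- A finitely generated faithful module over a commutative ring has, for every ring hom `χ` into
a field, a nonzero `χ`-semilinear functional. -/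
theorem exists_semilinear_functional {𝕋 : Type*} [CommRing 𝕋] {N : Type*} [AddCommGroup N]
    [Module 𝕋 N] [Module.Finite 𝕋 N] (hfaith : ∀ t : 𝕋, (∀ y : N, t • y = 0) → t = 0)
    {F : Type*} [Field F] (χ : 𝕋 →+* F) :
    ∃ θ : N →+ F, θ ≠ 0 ∧ ∀ (t : 𝕋) (y : N), θ (t • y) = χ t * θ y := by
  classical
  -- the prime ideal `𝔭 = ker χ`
  have h𝔭 : (RingHom.ker χ).IsPrime := RingHom.ker_isPrime χ
  let p : PrimeSpectrum 𝕋 := ⟨RingHom.ker χ, h𝔭⟩
  have hann : Module.annihilator 𝕋 N = ⊥ := by
    rw [eq_bot_iff]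
    intro t ht
    rw [Module.mem_annihilator] at ht
    exact (Submodule.mem_bot 𝕋).mpr (hfaith t ht)
  have hsupp : p ∈ Module.support 𝕋 N := by
    rw [Module.mem_support_iff_of_finite, hann]
    exact bot_le
  have hnt : Nontrivial ((RingHom.ker χ).ResidueField ⊗[𝕋] N) :=
    (Module.mem_support_iff_nontrivial_residueField_tensorProduct p).mp hsupp
  -- the embedding of the residue field into `F`
  let ι : (RingHom.ker χ).ResidueField →+* F :=
    Ideal.ResidueField.lift (RingHom.ker χ) χ le_rfl (by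
      intro x hx
      have : χ x ≠ 0 := fun h => hx (RingHom.mem_ker.mpr h)
      exact this.isUnit)
  have hι : ∀ t : 𝕋, ι (algebraMap 𝕋 (RingHom.ker χ).ResidueField t) = χ t :=
    fun t => Ideal.ResidueField.lift_algebraMap _ _ _ _ t
  -- a nonzero functional on the fibre
  obtain ⟨v₀, hv₀⟩ := exists_ne (0 : (RingHom.ker χ).ResidueField ⊗[𝕋] N)
  obtain ⟨lam, hlam⟩ : ∃ lam : Module.Dual (RingHom.ker χ).ResidueField
      ((RingHom.ker χ).ResidueField ⊗[𝕋] N), lam v₀ ≠ 0 := by
    by_contra hcon
    have hcon' : ∀ lam : Module.Dual (RingHom.ker χ).ResidueField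
        ((RingHom.ker χ).ResidueField ⊗[𝕋] N), lam v₀ = 0 := by
      intro lam
      by_contra h
      exact hcon ⟨lam, h⟩
    exact hv₀ ((Module.forall_dual_apply_eq_zero_iff (RingHom.ker χ).ResidueField v₀).mp hcon')
  -- the functional
  let θ : N →+ F :=
    { toFun := fun y => ι (lam ((1 : (RingHom.ker χ).ResidueField) ⊗ₜ[𝕋] y))
      map_zero' := by simp
      map_add' := fun y z => by simp [TensorProduct.tmul_add] }
  have hθ : ∀ y, θ y = ι (lam ((1 : (RingHom.ker χ).ResidueField) ⊗ₜ[𝕋] y)) := fun _ => rfl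
  refine ⟨θ, ?_, ?_⟩
  · intro hzero
    apply hlam
    have hpure : ∀ (c : (RingHom.ker χ).ResidueField) (y : N), lam (c ⊗ₜ[𝕋] y) = 0 := by
      intro c y
      have h1 : ι (lam ((1 : (RingHom.ker χ).ResidueField) ⊗ₜ[𝕋] y)) = 0 := by
        rw [← hθ, hzero]; rfl
      have h2 : lam ((1 : (RingHom.ker χ).ResidueField) ⊗ₜ[𝕋] y) = 0 :=
        (map_eq_zero ι).mp h1
      have h3 : c ⊗ₜ[𝕋] y = c • ((1 : (RingHom.ker χ).ResidueField) ⊗ₜ[𝕋] y) := by
        rw [TensorProduct.smul_tmul', smul_eq_mul, mul_one]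
      rw [h3, map_smul, h2, smul_zero]
    have hall : ∀ v : (RingHom.ker χ).ResidueField ⊗[𝕋] N, lam v = 0 := by
      intro v
      induction v using TensorProduct.induction_on with
      | zero => simp
      | tmul c y => exact hpure c y
      | add x y hx hy => rw [map_add, hx, hy, add_zero]
    exact hall v₀
  · intro t y
    rw [hθ, hθ, ← hι t, ← map_mul]
    congr 1
    have h3 : (1 : (RingHom.ker χ).ResidueField) ⊗ₜ[𝕋] (t • y)
        = (algebraMap 𝕋 (RingHom.ker χ).ResidueField t) •
          ((1 : (RingHom.ker χ).ResidueField) ⊗ₜ[𝕋] y) := by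
      rw [TensorProduct.tmul_smul, TensorProduct.smul_tmul', TensorProduct.smul_tmul',
        smul_eq_mul, mul_one, Algebra.smul_def, mul_one]
    rw [h3, map_smul, smul_eq_mul]

end Fermat.Agent.S30.H829

namespace Fermat.Agent.S30.H829

/-- The action of a commutative ring `𝕋` on `S →+ K` by precomposition with its action on `S`. -/
@[reducible] def precompModule (𝕋 S K : Type*) [CommRing 𝕋] [AddCommGroup S] [Module 𝕋 S]
    [AddCommGroup K] : Module 𝕋 (S →+ K) where
  smul t ν := ν.comp (DistribSMul.toAddMonoidHom S t)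
  one_smul ν := by
    ext s
    show ν ((1 : 𝕋) • s) = ν s
    rw [one_smul]
  mul_smul t t' ν := by
    ext s
    show ν ((t * t') • s) = ν (t' • t • s)
    rw [mul_comm, mul_smul]
  smul_zero t := by
    ext s
    rfl
  smul_add t ν ν' := by
    ext s
    rfl
  add_smul t t' ν := by
    ext s
    show ν ((t + t') • s) = ν (t • s) + ν (t' • s)
    rw [add_smul, map_add]
  zero_smul ν := by
    ext s
    show ν ((0 : 𝕋) • s) = 0
    rw [zero_smul, map_zero]

theorem precompModule_smul_apply {𝕋 S K : Type*} [CommRing 𝕋] [AddCommGroup S] [Module 𝕋 S]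
    [AddCommGroup K] (t : 𝕋) (ν : S →+ K) (s : S) :
    (letI := precompModule 𝕋 S K; t • ν) s = ν (t • s) := rfl

/-- **Abstract "eigensystem occurs" theorem.**  `𝕋` acts faithfully on `S`; `π : S →+ (Γ →+ K)` is
an injective "period map" on a finitely generated group `Γ`.  For every ring hom `χ : 𝕋 → O` into
a domain there is a nonzero `φ : Γ →+ O` with `φ b' = χ t * φ b` whenever
`π s b' = π (t • s) b` for all `s`, and `φ b = 0` whenever `π s b = 0` for all `s`. -/
theorem exists_eigen_hom
    {S : Type*} [AddCommGroup S] {K : Type*} [AddCommGroup K]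
    {𝕋 : Type*} [CommRing 𝕋] [Module 𝕋 S] (hfaith : ∀ t : 𝕋, (∀ s : S, t • s = 0) → t = 0)
    {Γ : Type*} [AddGroup Γ] [hΓ : AddGroup.FG Γ]
    (π : S →+ (Γ →+ K)) (hπ : Function.Injective π)
    {O : Type*} [CommRing O] [IsDomain O] (χ : 𝕋 →+* O) :
    ∃ φ : Γ →+ O, φ ≠ 0 ∧
      (∀ (t : 𝕋) (b b' : Γ), (∀ s, π s b' = π (t • s) b) → φ b' = χ t * φ b) ∧
      (∀ b, (∀ s, π s b = 0) → φ b = 0) := by
  classical
  letI : Module 𝕋 (S →+ K) := precompModule 𝕋 S K
  -- evaluation map
  let ev : Γ →+ (S →+ K) := π.flip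
  have hev : ∀ b s, ev b s = π s b := fun _ _ => rfl
  -- finite generating set
  obtain ⟨G₀, hG₀, hG₀fin⟩ := (AddSubgroup.fg_iff _).mp (AddGroup.fg_def.mp hΓ)
  let N : Submodule 𝕋 (S →+ K) := Submodule.span 𝕋 (ev '' G₀)
  haveI : Module.Finite 𝕋 N := Module.Finite.span_of_finite 𝕋 (hG₀fin.image ev)
  have hevN : ∀ b : Γ, ev b ∈ N := by
    intro b
    have hb : b ∈ AddSubgroup.closure G₀ := by rw [hG₀]; trivial
    induction hb using AddSubgroup.closure_induction with
    | mem x hx => exact Submodule.subset_span ⟨x, hx, rfl⟩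
    | zero => rw [map_zero]; exact N.zero_mem
    | add x y _ _ hx hy => rw [map_add]; exact N.add_mem hx hy
    | neg x _ hx => rw [map_neg]; exact N.neg_mem hx
  -- faithfulness of `N`
  have hNfaith : ∀ t : 𝕋, (∀ y : N, t • y = 0) → t = 0 := by
    intro t ht
    apply hfaith t
    intro s
    apply hπ
    rw [map_zero]
    ext b
    have h1 := ht ⟨ev b, hevN b⟩
    have h2 : t • ev b = 0 := by
      have := congrArg Subtype.val h1
      simpa using this
    have h3 := DFunLike.congr_fun h2 s
    rw [precompModule_smul_apply, hev] at h3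
    simpa using h3
  -- the semilinear functional
  let F := FractionRing O
  obtain ⟨θ, hθ0, hθ⟩ := exists_semilinear_functional (𝕋 := 𝕋) (N := N) hNfaith
    ((algebraMap O F).comp χ)
  let φ₀ : Γ →+ F :=
    { toFun := fun b => θ ⟨ev b, hevN b⟩
      map_zero' := by
        have : (⟨ev 0, hevN 0⟩ : N) = 0 := Subtype.ext (map_zero ev)
        rw [this, map_zero]
      map_add' := fun b c => by
        have : (⟨ev (b + c), hevN (b + c)⟩ : N) = ⟨ev b, hevN b⟩ + ⟨ev c, hevN c⟩ :=
          Subtype.ext (map_add ev b c)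
        rw [this, map_add] }
  have hφ₀ : ∀ b, φ₀ b = θ ⟨ev b, hevN b⟩ := fun _ => rfl
  have hφ₀ne : φ₀ ≠ 0 := by
    intro h0
    apply hθ0
    ext y
    obtain ⟨y, hy⟩ := y
    show θ ⟨y, hy⟩ = 0
    induction hy using Submodule.span_induction with
    | mem x hx =>
      obtain ⟨b, -, rfl⟩ := hx
      have := DFunLike.congr_fun h0 b
      rw [hφ₀] at this
      exact this
    | zero => exact map_zero θ
    | add x y hx hy ihx ihy =>
      have : (⟨x + y, N.add_mem hx hy⟩ : N) = ⟨x, hx⟩ + ⟨y, hy⟩ := rfl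
      rw [this, map_add, ihx, ihy, add_zero]
    | smul t x hx ihx =>
      have : (⟨t • x, N.smul_mem t hx⟩ : N) = t • ⟨x, hx⟩ := rfl
      rw [this, hθ, ihx, mul_zero]
  -- common denominator on the generators
  have hden : ∀ b : Γ, ∃ d : O, d ≠ 0 ∧ ∃ a : O, algebraMap O F d * φ₀ b = algebraMap O F a := by
    intro b
    obtain ⟨a, d, hd, h⟩ := IsFractionRing.div_surjective (A := O) (φ₀ b)
    refine ⟨d, nonZeroDivisors.ne_zero hd, a, ?_⟩
    rw [← h]
    have : algebraMap O F d ≠ 0 := by
      intro h0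
      exact nonZeroDivisors.ne_zero hd ((IsFractionRing.injective O F) (by rw [h0, map_zero]))
    rw [mul_div_cancel₀ _ this]
  choose dd hdd aa haa using hden
  let D : O := ∏ g ∈ hG₀fin.toFinset, dd g
  have hD : D ≠ 0 := Finset.prod_ne_zero_iff.mpr fun g _ => hdd g
  have hDF : algebraMap O F D ≠ 0 := by
    intro h0
    exact hD ((IsFractionRing.injective O F) (by rw [h0, map_zero]))
  have hint : ∀ b : Γ, ∃ a : O, algebraMap O F D * φ₀ b = algebraMap O F a := by
    intro b
    have hb : b ∈ AddSubgroup.closure G₀ := by rw [hG₀]; trivial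
    induction hb using AddSubgroup.closure_induction with
    | mem x hx =>
      have hx' : x ∈ hG₀fin.toFinset := hG₀fin.mem_toFinset.mpr hx
      obtain ⟨c, hc⟩ := Finset.dvd_prod_of_mem dd hx'
      refine ⟨c * aa x, ?_⟩
      have : D = dd x * c := hc
      rw [this, map_mul, map_mul, ← haa x]
      ring
    | zero => exact ⟨0, by rw [map_zero, mul_zero, map_zero]⟩
    | add x y _ _ hx hy =>
      obtain ⟨a, ha⟩ := hx
      obtain ⟨a', ha'⟩ := hy
      exact ⟨a + a', by rw [map_add, mul_add, ha, ha', map_add]⟩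
    | neg x _ hx =>
      obtain ⟨a, ha⟩ := hx
      exact ⟨-a, by rw [map_neg, mul_neg, ha, map_neg]⟩
  choose f hf using hint
  have hinj : Function.Injective (algebraMap O F) := IsFractionRing.injective O F
  let φ : Γ →+ O :=
    { toFun := f
      map_zero' := hinj (by rw [← hf, map_zero, mul_zero, map_zero])
      map_add' := fun b c => hinj (by rw [← hf, map_add, mul_add, hf, hf, map_add]) }
  have hφ : ∀ b, algebraMap O F (φ b) = algebraMap O F D * φ₀ b := fun b => (hf b).symm
  refine ⟨φ, ?_, ?_, ?_⟩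
  · intro h0
    apply hφ₀ne
    ext b
    have h1 := hφ b
    rw [h0] at h1
    have h2 : algebraMap O F D * φ₀ b = 0 := by
      rw [← h1]; simp
    rcases mul_eq_zero.mp h2 with h | h
    · exact absurd h hDF
    · exact h
  · intro t b b' hbb'
    apply hinj
    rw [map_mul, hφ, hφ]
    have hev' : (⟨ev b', hevN b'⟩ : N) = t • ⟨ev b, hevN b⟩ := by
      apply Subtype.ext
      show ev b' = t • ev b
      ext s
      rw [precompModule_smul_apply, hev, hev]
      exact hbb' s
    rw [hφ₀, hφ₀, hev', hθ]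
    simp only [RingHom.comp_apply]
    ring
  · intro b hb
    apply hinj
    rw [hφ, map_zero]
    have : (⟨ev b, hevN b⟩ : N) = 0 := by
      apply Subtype.ext
      show ev b = 0
      ext s
      rw [hev]
      exact hb s
    rw [hφ₀, this, map_zero, mul_zero]

end Fermat.Agent.S30.H829
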