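/-
S30 / p-adic layer (helper829) — piece OCC-adic: the eigensystem of ANY ring homomorphism
`χ : 𝕋 = heckeAlgebra N 2 S → O` (`O` any domain, e.g. a `p`-adic DVR or a field of any
characteristic) occurs in the parabolic homomorphisms `Hom_par(Γ₀(N), O)`.

Transfer-independent core: the eigen-property is stated through the period map, so that the
Hecke-equivariance of the period map (S29 piece E2a) turns it into `heckeHom ℓ φ = χ(T_ℓ) • φ`.
-/
import Fermat.Agent.S30.H829.EigenFunctional
import Fermat.Agent.S21.H381.Parabolic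
import Fermat.Agent.S21.H81.CPrime
import Fermat.Prelude.Def_CuspForm_HeckeAlgebra

set_option autoImplicit false

open CongruenceSubgroup ModularCurve ModularCurve.Period
open scoped MatrixGroups

namespace Fermat.Agent.S30.H829

/-- `SL(2, ℤ)` is finitely generated (by `S` and `T`). -/
instance instGroupFGSL2Z : Group.FG SL(2, ℤ) :=
  Group.fg_iff.mpr ⟨{ModularGroup.S, ModularGroup.T}, SpecialLinearGroup.SL2Z_generators,
    Set.toFinite _⟩

/-- `Γ₀(N)` is finitely generated (Schreier). -/
theorem group_fg_Gamma0 (N : ℕ) [NeZero N] : Group.FG (Gamma0 N) := inferInstance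

/-- The period map is injective. -/
theorem periodMap_injective (N : ℕ) [NeZero N] :
    Function.Injective (Fermat.Agent.S21.H381.periodMapLin N) := by
  rw [injective_iff_map_eq_zero]
  intro f hf
  obtain ⟨F, hF⟩ := Fermat.Agent.S21.H381.exists_hasEquivariantPrimitive f
  refine Fermat.Agent.S21.H81.eq_zero_of_re_period_eq_zero N f hF fun γ => ?_
  have h1 := Fermat.Agent.S21.H381.periodMap_apply hF γ UpperHalfPlane.I
  have h2 : periodMap N f (Additive.ofMul γ) = 0 := by
    have := DFunLike.congr_fun hf (Additive.ofMul γ)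
    simpa using this
  rw [← h1, h2]
  rfl

/-- The tautological action of the Hecke algebra on cusp forms. -/
@[reducible] noncomputable def heckeAlgebraModule (N : ℕ) [NeZero N] (S : Set ℕ) :
    Module (CuspForm.heckeAlgebra N 2 S) (CuspForm (Gamma0 N) 2) :=
  Module.compHom (CuspForm (Gamma0 N) 2) (CuspForm.heckeAlgebra N 2 S).val.toRingHom

theorem heckeAlgebraModule_smul (N : ℕ) [NeZero N] (S : Set ℕ)
    (t : CuspForm.heckeAlgebra N 2 S) (f : CuspForm (Gamma0 N) 2) :
    (letI := heckeAlgebraModule N S; t • f) = t.1 f := rfl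

/-- **OCC-adic, core form.**  For every ring homomorphism `χ` from the Hecke algebra to a domain
`O` there is a nonzero parabolic homomorphism `φ : Γ₀(N) → O` such that for every Hecke operator
`t` and all `b, b'` with `periodMap f b' = periodMap (t f) b` for all cusp forms `f`,
`φ b' = χ t * φ b`. -/
theorem exists_eigen_parabolicHom_core (N : ℕ) [NeZero N] (S : Set ℕ)
    {O : Type*} [CommRing O] [IsDomain O] (χ : CuspForm.heckeAlgebra N 2 S →+* O) :
    ∃ φ : Additive (Gamma0 N) →+ O, φ ≠ 0 ∧ IsParabolicHom (Gamma0 N) φ ∧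
      ∀ (t : CuspForm.heckeAlgebra N 2 S) (b b' : Additive (Gamma0 N)),
        (∀ f : CuspForm (Gamma0 N) 2, periodMap N f b' = periodMap N (t.1 f) b) →
          φ b' = χ t * φ b := by
  letI := heckeAlgebraModule N S
  haveI : Group.FG (Gamma0 N) := group_fg_Gamma0 N
  have hfaith : ∀ t : CuspForm.heckeAlgebra N 2 S,
      (∀ f : CuspForm (Gamma0 N) 2, t • f = 0) → t = 0 := by
    intro t ht
    apply Subtype.ext
    apply LinearMap.ext
    intro f
    exact ht f
  obtain ⟨φ, hφ0, hφe, hφv⟩ := exists_eigen_hom (𝕋 := CuspForm.heckeAlgebra N 2 S)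
    (S := CuspForm (Gamma0 N) 2) (K := ℂ) (Γ := Additive (Gamma0 N)) hfaith
    (Fermat.Agent.S21.H381.periodMapLin N).toAddMonoidHom
    (periodMap_injective N) χ
  refine ⟨φ, hφ0, ?_, ?_⟩
  · intro γ hγ
    apply hφv
    intro f
    exact (mem_parabolicHoms_iff.mp (Fermat.Agent.S21.H381.periodMap_mem_parabolicHoms f)) γ hγ
  · intro t b b' h
    exact hφe t b b' h

end Fermat.Agent.S30.H829
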