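/-
S30 / p-adic layer (helper829) — piece OCC-adic, final form (`heckeHom` of S29/H201):
for EVERY ring homomorphism `χ : heckeAlgebra N 2 S → O` into a domain `O` (any characteristic:
`p`-adic DVRs, number rings, finite fields, ...) there is a nonzero parabolic homomorphism
`φ : Γ₀(N) → O` with `T_ℓ φ = χ(T_ℓ) • φ` for all primes `ℓ ∤ N`, `ℓ ∉ S`.
-/
import Fermat.Agent.S30.H829.OccAdic
import Fermat.Agent.S29.H201.PeriodHecke

set_option autoImplicit false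

open CongruenceSubgroup ModularCurve ModularCurve.Period
open scoped MatrixGroups

namespace Fermat.Agent.S30.H829

open Fermat.Agent.S29.H201

/-- The (ordered) sum in `Additive Γ₀(N)` of the transfer elements of `γ`. -/
noncomputable def trfSum {N : ℕ} (ℓ : ℕ) [Fact ℓ.Prime] (hℓN : ¬ ℓ ∣ N) (γ : Gamma0 N) :
    Additive (Gamma0 N) :=
  ((Finset.univ : Finset (OnePoint (ZMod ℓ))).toList.map
    (fun x => Additive.ofMul (trf hℓN γ x))).sum

theorem map_trfSum {N : ℕ} (ℓ : ℕ) [Fact ℓ.Prime] (hℓN : ¬ ℓ ∣ N) {A : Type*} [AddCommGroup A]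
    (ψ : Additive (Gamma0 N) →+ A) (γ : Gamma0 N) :
    ψ (trfSum ℓ hℓN γ) = heckeHom ℓ hℓN A ψ (Additive.ofMul γ) := by
  rw [heckeHom_apply, trfSum, map_list_sum, List.map_map]
  exact Finset.sum_map_toList (Finset.univ : Finset (OnePoint (ZMod ℓ)))
    (fun x => ψ (Additive.ofMul (trf hℓN γ x)))

/-- **OCC-adic.**  Every ring homomorphism from the Hecke algebra to a domain occurs as a
Hecke eigensystem in `Hom_par(Γ₀(N), O)`. -/
theorem exists_eigen_parabolicHom_adic (N : ℕ) [NeZero N] (S : Set ℕ)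
    {O : Type*} [CommRing O] [IsDomain O] (χ : CuspForm.heckeAlgebra N 2 S →+* O) :
    ∃ φ : Additive (Gamma0 N) →+ O, φ ≠ 0 ∧ IsParabolicHom (Gamma0 N) φ ∧
      ∀ (ℓ : ℕ) [Fact ℓ.Prime] (hℓ : ℓ.Prime) (hℓN : ¬ ℓ ∣ N) (hℓS : ℓ ∉ S),
        heckeHom ℓ hℓN O φ
          = (AddMonoidHom.mulLeft (χ (CuspForm.heckeAlgebra.T hℓ hℓN hℓS))).comp φ := by
  obtain ⟨φ, hφ0, hφpar, hφ⟩ := exists_eigen_parabolicHom_core N S χ
  refine ⟨φ, hφ0, hφpar, ?_⟩
  intro ℓ _ hℓ hℓN hℓS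
  ext γ
  have h := hφ (CuspForm.heckeAlgebra.T hℓ hℓN hℓS) γ (trfSum ℓ hℓN (Additive.toMul γ)) (by
    intro f
    rw [map_trfSum, CuspForm.heckeAlgebra.coe_T, periodMap_heckeTLin hℓ hℓN f]
    rfl)
  rw [map_trfSum] at h
  exact h

end Fermat.Agent.S30.H829
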